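import Fermat.Agent.TOR.T1.Basic
import Fermat.Agent.CAR.BK.Defs

/-!
# MR / TH / BK2 : the chart ring `B ⊆ F_K` of level `p N'` (TWO vertical valuations).  Definitions.

ABSTRACT SETTING = `T1.Lvl` (two-level datum `F₀ = F(M₁)`, `F = F(M₁ q)`, `α β : F₀ → F` = `f(τ)`, `f(qτ)`, `w` = Atkin-Lehner,
`v`, `ρ` the Gauss valuation and its reduction) + two subfields `E₀ ⊆ F₀`, `E ⊆ F` (the elements fixed by the inertia group).
One chart is a triple `(u₀, u, η) = (x, t, ξ)` or `(x⁻¹, t⁻¹, ξ⁻¹)`, `t = α x * β x`.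
Index type `ON.Idx Empty = {oo, zr}` : `oo` (valuation `v`), `zr` (valuation `v ∘ w`).  The chart ring is `BK.Bu K E (vv K v w) u`.

* `vv K v w`      : the family of the two valuations of `F`
* `rr K ρ w`      : the family of the two reduction maps
* `vE E v j`      : (any family) the valuations restricted to `E`
* `pE K E v u j`  : (any family) the vertical primes of `Bu K E v u`
* `rE K E ρ u j`  : (any family) the reduction maps `Bu K E v u → k((Q))`
-/

set_option autoImplicit false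

open Polynomial ModularCurve AlgebraicCurve

noncomputable section

namespace Fermat.Agent.MR.TH.BK2

open Fermat.Agent.GAL.KL Fermat.Agent.GAL.KLC Fermat.Agent.TOR.T1 Fermat.Agent.CAR.ON
open Fermat.Agent.CAR.BK

variable (K : Type*) {F₀ F k Γ' Γ₀ I : Type*} [Field K] [Field F₀] [Field F] [Algebra K F₀]
  [Algebra K F] [Field k] [LinearOrderedCommGroupWithZero Γ'] [LinearOrderedCommGroupWithZero Γ₀]

/-- the family of the two valuations `v`, `v ∘ w`. -/
def vv (v : Valuation F Γ₀) (w : F ≃ₐ[K] F) : Idx Empty → Valuation F Γ₀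
  | none => v
  | some none => vw K v w
  | some (some e) => e.elim

@[simp] theorem vv_oo (v : Valuation F Γ₀) (w : F ≃ₐ[K] F) : vv K v w oo = v := rfl

@[simp] theorem vv_zr (v : Valuation F Γ₀) (w : F ≃ₐ[K] F) : vv K v w zr = vw K v w := rfl

/-- the reduction map of `v ∘ w`. -/
def rw2 {v : Valuation F Γ₀} (ρ : v.integer →+* LaurentSeries k) (w : F ≃ₐ[K] F) :
    (vw K v w).integer →+* LaurentSeries k :=
  ρ.comp
    { toFun := fun z => ⟨w (z : F), z.2⟩
      map_one' := Subtype.ext (map_one _)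
      map_mul' := fun _ _ => Subtype.ext (map_mul _ _ _)
      map_zero' := Subtype.ext (map_zero _)
      map_add' := fun _ _ => Subtype.ext (map_add _ _ _) }

/-- the family of the two reduction maps. -/
def rr {v : Valuation F Γ₀} (ρ : v.integer →+* LaurentSeries k) (w : F ≃ₐ[K] F) :
    ∀ i, (vv K v w i).integer →+* LaurentSeries k
  | none => ρ
  | some none => rw2 K ρ w
  | some (some e) => e.elim

@[simp] theorem rr_oo {v : Valuation F Γ₀} (ρ : v.integer →+* LaurentSeries k) (w : F ≃ₐ[K] F) :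
    rr K ρ w oo = ρ := rfl

@[simp] theorem rr_zr {v : Valuation F Γ₀} (ρ : v.integer →+* LaurentSeries k) (w : F ≃ₐ[K] F) :
    rr K ρ w zr = rw2 K ρ w := rfl

variable {K}

theorem rd_rw2 {v : Valuation F Γ₀} {ρ : v.integer →+* LaurentSeries k} {w : F ≃ₐ[K] F} {z : F}
    {φ : LaurentSeries k} : Rd (rw2 K ρ w) z φ ↔ Rd ρ (w z) φ := Iff.rfl

theorem rd_rr_oo {v : Valuation F Γ₀} {ρ : v.integer →+* LaurentSeries k} {w : F ≃ₐ[K] F} {z : F}
    {φ : LaurentSeries k} : Rd (rr K ρ w oo) z φ ↔ Rd ρ z φ := Iff.rfl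

theorem rd_rr_zr {v : Valuation F Γ₀} {ρ : v.integer →+* LaurentSeries k} {w : F ≃ₐ[K] F} {z : F}
    {φ : LaurentSeries k} : Rd (rr K ρ w zr) z φ ↔ Rd ρ (w z) φ := Iff.rfl

/-- the two indices. -/
theorem idx_cases (j : Idx Empty) : j = oo ∨ j = zr := by
  rcases j with _ | _ | e
  · exact Or.inl rfl
  · exact Or.inr rfl
  · exact e.elim

theorem forall_idx {P : Idx Empty → Prop} : (∀ j, P j) ↔ P oo ∧ P zr :=
  ⟨fun h => ⟨h _, h _⟩, fun h j => by rcases idx_cases j with rfl | rfl; exacts [h.1, h.2]⟩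

theorem mem_Bu2 {E : Subfield F} {v : Valuation F Γ₀} {w : F ≃ₐ[K] F} {u : F} {z : E} :
    z ∈ Bu K E (vv K v w) u ↔ IsInt K u (z : F) ∧ v (z : F) ≤ 1 ∧ v (w (z : F)) ≤ 1 := by
  rw [mem_Bu, forall_idx]
  rfl

/-- the valuations restricted to `E` (any family). -/
def vE (E : Subfield F) (v : Idx I → Valuation F Γ₀) (j : Idx I) : Valuation E Γ₀ :=
  (v j).comap E.subtype

@[simp] theorem vE_apply (E : Subfield F) (v : Idx I → Valuation F Γ₀) (j : Idx I) (z : E) :
    vE E v j z = v j (z : F) := rfl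

variable (K) in
/-- the vertical primes of `B_u` (any family). -/
def pE (E : Subfield F) (v : Idx I → Valuation F Γ₀) (u : F) (j : Idx I) : Ideal (Bu K E v u) where
  carrier := {z | v j ((z : E) : F) < 1}
  add_mem' := fun h h' => lt_of_le_of_lt (Valuation.map_add _ _ _) (max_lt h h')
  zero_mem' := by
    show v j (0 : F) < 1
    rw [map_zero]; exact zero_lt_one
  smul_mem' := fun c z h => by
    show v j (((c : E) : F) * ((z : E) : F)) < 1
    rw [map_mul]
    exact lt_of_le_of_lt (mul_le_of_le_one_left' (c.2.2 _)) h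

theorem mem_pE {E : Subfield F} {v : Idx I → Valuation F Γ₀} {u : F} {j : Idx I}
    {z : Bu K E v u} : z ∈ pE K E v u j ↔ vE E v j (z : E) < 1 := Iff.rfl

variable (K) in
/-- the reduction maps `B_u → k((Q))` (any family). -/
def rE (E : Subfield F) {v : Idx I → Valuation F Γ₀} (ρ : ∀ i, (v i).integer →+* LaurentSeries k)
    (u : F) (j : Idx I) : Bu K E v u →+* LaurentSeries k :=
  (ρ j).comp
    { toFun := fun z => ⟨((z : E) : F), z.2.2 _⟩
      map_one' := rfl
      map_mul' := fun _ _ => rfl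
      map_zero' := rfl
      map_add' := fun _ _ => rfl }

theorem rd_rE (E : Subfield F) {v : Idx I → Valuation F Γ₀}
    (ρ : ∀ i, (v i).integer →+* LaurentSeries k) (u : F) (j : Idx I) (z : Bu K E v u) :
    Rd (ρ j) ((z : E) : F) (rE K E ρ u j z) := ⟨z.2.2 _, rfl⟩

variable (K) in
/-- **the rationality hypotheses on one chart** `(u₀, u, η) = (x, t, ξ)` or `(x⁻¹, t⁻¹, ξ⁻¹)`
(to be used together with `T1.ChartIn K ρ₀ ρ α w u₀ u η`). -/
structure Rat2 {v₀ : Valuation F₀ Γ'} (ρ₀ : v₀.integer →+* LaurentSeries k)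
    (α β : F₀ →ₐ[K] F) (E₀ : Subfield F₀) (E : Subfield F) (q : ℕ) [NeZero q]
    (u₀ : F₀) (η : LaurentSeries k) : Prop where
  /-- rationality -/
  αE : ∀ c ∈ E₀, α c ∈ E
  βE : ∀ c ∈ E₀, β c ∈ E
  u₀E : u₀ ∈ E₀
  /-- the parameter -/
  ru : Rd ρ₀ u₀ η
  Vη : qExpand k q η = η ^ q
  oη : η.order ≠ 0
  /-- rational lifts -/
  lift : ∀ c φ, Rd ρ₀ c φ → IsInt k η φ → ∃ c' ∈ E₀, IsInt K u₀ c' ∧ Rd ρ₀ c' φ
  /-- every element of the residue field is a fraction of elements of the reduced chart ring -/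
  fr : ∀ c φ, Rd ρ₀ c φ → ∃ b s : LaurentSeries k, s ≠ 0 ∧ (∃ c', Rd ρ₀ c' b) ∧ IsInt k η b ∧
    (∃ c', Rd ρ₀ c' s) ∧ IsInt k η s ∧ s * φ = b

end Fermat.Agent.MR.TH.BK2
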