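import Fermat.Agent.MR.TH.BK2.Defs
import Fermat.Agent.CAR.BK.Vert

/-!
# MR / TH / BK2 : the instance of `NS.Vert` for the two-valuation chart ring `B = Bu K E (vv K v w) u ⊆ E`,
`B ⧸ p_j ≃ R' = RP.RR Fbar η`, (KR).   (Port of `CAR/BK/{Red,Quot,Vert}` to the setting `T1.Lvl`.)
-/

set_option autoImplicit false

open Polynomial ModularCurve AlgebraicCurve

noncomputable section

namespace Fermat.Agent.MR.TH.BK2

open Fermat.Agent.GAL.KL Fermat.Agent.GAL.KLC Fermat.Agent.TOR.T1 Fermat.Agent.CAR.ON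
open Fermat.Agent.GAL Fermat.Agent.CAR Fermat.Agent.CAR.BK

variable {K F₀ F k Γ' Γ₀ : Type*} [Field K] [Field F₀] [Field F] [Algebra K F₀]
  [Algebra K F] [Field k] [LinearOrderedCommGroupWithZero Γ'] [LinearOrderedCommGroupWithZero Γ₀]
  {v₀ : Valuation F₀ Γ'} {ρ₀ : v₀.integer →+* LaurentSeries k}
  {v : Valuation F Γ₀} {ρ : v.integer →+* LaurentSeries k}
  {α β : F₀ →ₐ[K] F} {w : F ≃ₐ[K] F} {q : ℕ} [NeZero q] {E₀ : Subfield F₀} {E : Subfield F}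
  {u₀ : F₀} {u : F} {η : LaurentSeries k}

/-- `v ∘ w` with `ρ ∘ w` is again a reduction datum. -/
theorem isRed_rw2 (h : IsRed K v ρ) (w : F ≃ₐ[K] F) : IsRed K (vw K v w) (rw2 K ρ w) where
  ker := fun z => h.ker ⟨w (z : F), z.2⟩
  const := fun a ha => by
    have ha' : algebraMap K F a ∈ v.integer := by
      have : v (w (algebraMap K F a)) ≤ 1 := ha
      rwa [AlgEquiv.commutes] at this
    obtain ⟨c, hc⟩ := h.const a ha'
    refine ⟨c, ?_⟩
    rw [← hc]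
    show ρ ⟨w (algebraMap K F a), _⟩ = _
    congr 1
    exact Subtype.ext (AlgEquiv.commutes w a)
  const_surj := fun c => by
    obtain ⟨a, ha, hc⟩ := h.const_surj c
    have ha' : algebraMap K F a ∈ (vw K v w).integer := by
      show v (w (algebraMap K F a)) ≤ 1
      rw [AlgEquiv.commutes]
      exact ha
    refine ⟨a, ha', ?_⟩
    rw [← hc]
    show ρ ⟨w (algebraMap K F a), _⟩ = _
    congr 1
    exact Subtype.ext (AlgEquiv.commutes w a)
  val := fun z hz => by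
    obtain ⟨a, ha⟩ := h.val (w z) (by simpa using hz)
    exact ⟨a, by rw [vw_apply, vw_apply, AlgEquiv.commutes, ha]⟩

theorem isRed_rr (h : IsRed K v ρ) (w : F ≃ₐ[K] F) (j : Idx Empty) :
    IsRed K (vv K v w j) (rr K ρ w j) := by
  rcases idx_cases j with rfl | rfl
  · exact h
  · exact isRed_rw2 h w

theorem arch_vv (hA : Arch v) (w : F ≃ₐ[K] F) (j : Idx Empty) : Arch (vv K v w j) := by
  rcases idx_cases j with rfl | rfl
  · exact hA
  · exact arch_vw hA w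

theorem vv_algebraMap (v : Valuation F Γ₀) (w : F ≃ₐ[K] F) (j : Idx Empty) (a : K) :
    vv K v w j (algebraMap K F a) = v (algebraMap K F a) := by
  rcases idx_cases j with rfl | rfl
  · rfl
  · rw [vv_zr, vw_apply, AlgEquiv.commutes]

/-- integrality transfer for `β`. -/
theorem intβ (H : Lvl K ρ₀ ρ α β w q) (C : ChartIn K ρ₀ ρ α w u₀ u η) {c : F₀}
    (hc : IsInt K u₀ c) : IsInt K u (β c) := by
  rw [← H.wα]
  exact isInt_w C.wu (C.intα c hc)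

/-- `α c ∈ B_u` for `c ∈ E₀` integral over `K[u₀]` with `v₀ c ≤ 1`; its two reductions `(φ, V φ)`. -/
theorem exists_α2 (H : Lvl K ρ₀ ρ α β w q) (C : ChartIn K ρ₀ ρ α w u₀ u η)
    (R : Rat2 K ρ₀ α β E₀ E q u₀ η) {c : F₀} (hc : c ∈ E₀) (hi : IsInt K u₀ c)
    {φ : LaurentSeries k} (hr : Rd ρ₀ c φ) :
    ∃ z : Bu K E (vv K v w) u, ((z : E) : F) = α c ∧ rE K E (rr K ρ w) u oo z = φ ∧
      rE K E (rr K ρ w) u zr z = qExpand k q φ := by
  have h1 : Rd (rr K ρ w oo) (α c) φ := H.ρα c φ hr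
  have h2 : Rd (rr K ρ w zr) (α c) (qExpand k q φ) := by
    rw [rd_rr_zr, H.wα]
    exact H.ρβ c φ hr
  refine ⟨⟨⟨α c, R.αE c hc⟩, C.intα c hi, forall_idx.2 ⟨h1.le_one, h2.le_one⟩⟩, rfl, ?_, ?_⟩
  · exact (rd_rE E (rr K ρ w) u oo _).unique h1
  · exact (rd_rE E (rr K ρ w) u zr _).unique h2

/-- the same for `β`: reductions `(V φ, φ)`. -/
theorem exists_β2 (H : Lvl K ρ₀ ρ α β w q) (C : ChartIn K ρ₀ ρ α w u₀ u η)
    (R : Rat2 K ρ₀ α β E₀ E q u₀ η) {c : F₀} (hc : c ∈ E₀) (hi : IsInt K u₀ c)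
    {φ : LaurentSeries k} (hr : Rd ρ₀ c φ) :
    ∃ z : Bu K E (vv K v w) u, ((z : E) : F) = β c ∧ rE K E (rr K ρ w) u oo z = qExpand k q φ ∧
      rE K E (rr K ρ w) u zr z = φ := by
  have h1 : Rd (rr K ρ w oo) (β c) (qExpand k q φ) := H.ρβ c φ hr
  have h2 : Rd (rr K ρ w zr) (β c) φ := by
    rw [rd_rr_zr, H.wβ]
    exact H.ρα c φ hr
  refine ⟨⟨⟨β c, R.βE c hc⟩, intβ H C hi, forall_idx.2 ⟨h1.le_one, h2.le_one⟩⟩, rfl, ?_, ?_⟩
  · exact (rd_rE E (rr K ρ w) u oo _).unique h1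
  · exact (rd_rE E (rr K ρ w) u zr _).unique h2

/-- the image of `rE j` lies in the reduced chart ring. -/
theorem rE_mem_RR (H : Lvl K ρ₀ ρ α β w q) (C : ChartIn K ρ₀ ρ α w u₀ u η) (j : Idx Empty)
    (z : Bu K E (vv K v w) u) : rE K E (rr K ρ w) u j z ∈ RP.RR (CTV.Fbar H.red₀) η := by
  rw [RP.mem_RR]
  have hz := mem_Bu2.1 z.2
  rcases idx_cases j with rfl | rfl
  · have h : Rd ρ ((z : E) : F) (rE K E (rr K ρ w) u oo z) := rd_rE E (rr K ρ w) u oo z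
    exact ⟨(mem_Fbar_iff H.red₀).2 (C.res _ _ h), C.ir _ _ hz.1 h hz.2.2⟩
  · have h : Rd ρ (w ((z : E) : F)) (rE K E (rr K ρ w) u zr z) := rd_rE E (rr K ρ w) u zr z
    exact ⟨(mem_Fbar_iff H.red₀).2 (C.res _ _ h),
      C.ir _ _ (isInt_w C.wu hz.1) h (by rw [H.ww]; exact hz.2.1)⟩

/-- `rE j` is onto the reduced chart ring. -/
theorem rE_surj (H : Lvl K ρ₀ ρ α β w q) (C : ChartIn K ρ₀ ρ α w u₀ u η)
    (R : Rat2 K ρ₀ α β E₀ E q u₀ η) (j : Idx Empty) {φ : LaurentSeries k}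
    (hφ : φ ∈ RP.RR (CTV.Fbar H.red₀) η) :
    ∃ z : Bu K E (vv K v w) u, rE K E (rr K ρ w) u j z = φ := by
  rw [RP.mem_RR] at hφ
  obtain ⟨c, hc⟩ := (mem_Fbar_iff H.red₀).1 hφ.1
  obtain ⟨c', hc'E, hi, hr⟩ := R.lift c φ hc hφ.2
  rcases idx_cases j with rfl | rfl
  · obtain ⟨z, -, h1, -⟩ := exists_α2 H C R hc'E hi hr
    exact ⟨z, h1⟩
  · obtain ⟨z, -, -, h1⟩ := exists_β2 H C R hc'E hi hr
    exact ⟨z, h1⟩

/-- the kernel of `rE j` is `pE j`. -/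
theorem rE_eq_zero_iff (H : Lvl K ρ₀ ρ α β w q) (j : Idx Empty) (z : Bu K E (vv K v w) u) :
    rE K E (rr K ρ w) u j z = 0 ↔ z ∈ pE K E (vv K v w) u j :=
  (isRed_rr H.red w j).ker _

/-- **`B/p_j = R'`.** -/
theorem exists_quotEquiv2 (H : Lvl K ρ₀ ρ α β w q) (C : ChartIn K ρ₀ ρ α w u₀ u η)
    (R : Rat2 K ρ₀ α β E₀ E q u₀ η) (j : Idx Empty) :
    ∃ e : (Bu K E (vv K v w) u ⧸ pE K E (vv K v w) u j) ≃+* RP.RR (CTV.Fbar H.red₀) η,
      ∀ z : Bu K E (vv K v w) u,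
        ((e (Ideal.Quotient.mk _ z) : RP.RR (CTV.Fbar H.red₀) η) : LaurentSeries k)
          = rE K E (rr K ρ w) u j z := by
  classical
  let f : Bu K E (vv K v w) u →+* RP.RR (CTV.Fbar H.red₀) η :=
    (rE K E (rr K ρ w) u j).codRestrict (RP.RR (CTV.Fbar H.red₀) η) (fun z => rE_mem_RR H C j z)
  have hf : Function.Surjective f := by
    rintro ⟨φ, hφ⟩
    obtain ⟨z, hz⟩ := rE_surj H C R j hφ
    exact ⟨z, Subtype.ext hz⟩
  have hker : pE K E (vv K v w) u j = RingHom.ker f := by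
    ext z
    rw [RingHom.mem_ker, ← rE_eq_zero_iff H j z]
    constructor
    · intro h
      exact Subtype.ext h
    · intro h
      exact congrArg Subtype.val h
  refine ⟨(Ideal.quotEquivOfEq hker).trans (RingHom.quotientKerEquivOfSurjective hf), fun z => ?_⟩
  rfl

theorem isDedekindDomain_quot2 (H : Lvl K ρ₀ ρ α β w q) (C : ChartIn K ρ₀ ρ α w u₀ u η)
    (R : Rat2 K ρ₀ α β E₀ E q u₀ η) (hD : IsDedekindDomain (RP.RR (CTV.Fbar H.red₀) η))
    (j : Idx Empty) : IsDedekindDomain (Bu K E (vv K v w) u ⧸ pE K E (vv K v w) u j) := by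
  obtain ⟨e, -⟩ := exists_quotEquiv2 H C R j
  exact isDedekindDomain_of_ringEquiv e.symm

/-- `η^(q²) ≠ η` (orders). -/
theorem eta_facts2 (R : Rat2 K ρ₀ α β E₀ E q u₀ η) (hq : 2 ≤ q) : (η ^ q) ^ q - η ≠ 0 := by
  intro h
  rw [← pow_mul] at h
  have h1 := congrArg HahnSeries.order (sub_eq_zero.mp h)
  rw [HahnSeries.order_pow, nsmul_eq_mul] at h1
  have h2 : (((q * q : ℕ) : ℤ) - 1) * η.order = 0 := by linear_combination h1
  rcases mul_eq_zero.mp h2 with h3 | h3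
  · have : (2 : ℤ) ≤ ((q * q : ℕ) : ℤ) := by
      have : 2 ≤ q * q := by nlinarith
      exact_mod_cast this
    omega
  · exact R.oη h3

/-- separating elements.  With `a = α u₀ ≡ (η, η^q)`, `c = β u₀ ≡ (η^q, η)`:
`j = oo`: `a^q - c ≡ (0, η^(q²) - η)`;  `j = zr`: `c^q - a`. -/
theorem exists_sep2 (H : Lvl K ρ₀ ρ α β w q) (C : ChartIn K ρ₀ ρ α w u₀ u η)
    (R : Rat2 K ρ₀ α β E₀ E q u₀ η) (hq : 2 ≤ q) (i j : Idx Empty) (hij : i ≠ j) :
    ∃ z : Bu K E (vv K v w) u, z ∈ pE K E (vv K v w) u j ∧ z ∉ pE K E (vv K v w) u i := by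
  have h2 := eta_facts2 R hq
  have hint : IsInt K u₀ u₀ := by simpa using IsInt.aeval (L := K) (t := u₀) X
  obtain ⟨a, -, ao, az⟩ := exists_α2 H C R R.u₀E hint R.ru
  obtain ⟨c, -, co, cz⟩ := exists_β2 H C R R.u₀E hint R.ru
  rw [R.Vη] at az co
  simp only [← rE_eq_zero_iff H]
  rcases idx_cases j with rfl | rfl
  · refine ⟨a ^ q - c, by rw [map_sub, map_pow, ao, co, sub_self], ?_⟩
    rcases idx_cases i with rfl | rfl
    · exact absurd rfl hij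
    · rw [map_sub, map_pow, az, cz]; exact h2
  · refine ⟨c ^ q - a, by rw [map_sub, map_pow, cz, az, sub_self], ?_⟩
    rcases idx_cases i with rfl | rfl
    · rw [map_sub, map_pow, co, ao]; exact h2
    · exact absurd rfl hij

/-- every reduction (at either valuation) lies in the residue field of level `M₁`. -/
theorem res2 (C : ChartIn K ρ₀ ρ α w u₀ u η) (j : Idx Empty) {z : F} {φ : LaurentSeries k}
    (h : Rd (rr K ρ w j) z φ) : ∃ c, Rd ρ₀ c φ := by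
  rcases idx_cases j with rfl | rfl
  · exact C.res z φ h
  · exact C.res (w z) φ h

/-- the residue field of `vE j` is the fraction field of `B_u / pE j`. -/
theorem frac2 (H : Lvl K ρ₀ ρ α β w q) (C : ChartIn K ρ₀ ρ α w u₀ u η)
    (R : Rat2 K ρ₀ α β E₀ E q u₀ η) (j : Idx Empty) (x : E) (hx : vE E (vv K v w) j x ≤ 1) :
    ∃ b s : Bu K E (vv K v w) u, s ∉ pE K E (vv K v w) u j ∧
      vE E (vv K v w) j (((s : E)) * x - (b : E)) < 1 := by
  obtain ⟨φ, hφ⟩ := exists_rd (ρ := rr K ρ w j) (z := (x : F)) hx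
  obtain ⟨c, hc⟩ := res2 C j hφ
  obtain ⟨b, s, hs0, hb1, hb2, hs1, hs2, hsb⟩ := R.fr c φ hc
  obtain ⟨zb, hzb⟩ := rE_surj H C R j (φ := b) ⟨(mem_Fbar_iff H.red₀).mpr hb1, hb2⟩
  obtain ⟨zs, hzs⟩ := rE_surj H C R j (φ := s) ⟨(mem_Fbar_iff H.red₀).mpr hs1, hs2⟩
  refine ⟨zb, zs, fun h => hs0 ?_, ?_⟩
  · rw [← hzs]
    exact (rE_eq_zero_iff H j zs).mpr h
  · have e1 : Rd (rr K ρ w j) (((zs : E) : F) * (x : F)) b := by
      have := (rd_rE E (rr K ρ w) u j zs).mul hφ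
      rwa [hzs, hsb] at this
    have e2 : Rd (rr K ρ w j) ((zb : E) : F) b := by
      have := rd_rE E (rr K ρ w) u j zb
      rwa [hzb] at this
    exact e1.sub_lt (isRed_rr H.red w j) e2

/-- **(TH1) the instance of `NS.Vert`.** -/
theorem vert2 (H : Lvl K ρ₀ ρ α β w q) (C : ChartIn K ρ₀ ρ α w u₀ u η)
    (R : Rat2 K ρ₀ α β E₀ E q u₀ η) (hq : 2 ≤ q) (hA : Arch v)
    (hD : IsDedekindDomain (RP.RR (CTV.Fbar H.red₀) η)) :
    NS.Vert (Bu K E (vv K v w) u) (vE E (vv K v w)) (pE K E (vv K v w) u) where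
  ic := ic
  le_one := fun i z => z.2.2 _
  mem_p := fun _ _ => Iff.rfl
  arch := fun i x hx γ hγ => arch_vv hA w i (x : F) hx γ hγ
  ded := fun j => isDedekindDomain_quot2 H C R hD j
  frac := fun j x hx => frac2 H C R j x hx
  ne := fun i j hij hle => by
    obtain ⟨z, hz, hz'⟩ := exists_sep2 H C R hq i j hij
    exact hz' (hle hz)

/-- **(TH2) hypothesis (KR) of `NS.ns_main`**, for `π` a nonzero constant (any family of valuations). -/
theorem kr2 {I : Type*} {vf : Idx I → Valuation F Γ₀} (a : K) (ha : a ≠ 0)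
    (π : Bu K E vf u) (hπ : ((π : E) : F) = algebraMap K F a) (z : E)
    (h1 : ∃ N : ℕ, ((π : E)) ^ N * z ∈ Bu K E vf u) (h2 : ∀ j, vE E vf j z ≤ 1) :
    z ∈ Bu K E vf u := by
  refine ⟨?_, h2⟩
  obtain ⟨N, hN⟩ := h1
  have h3 : IsInt K u ((((π : E)) ^ N * z : E) : F) := hN.1
  rw [Subfield.coe_mul, SubmonoidClass.coe_pow, hπ] at h3
  have haF : algebraMap K F a ≠ 0 := by simpa using ha
  have h4 : (z : F) = algebraMap K F (a⁻¹ ^ N) * (algebraMap K F a ^ N * (z : F)) := by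
    rw [map_pow, map_inv₀, ← mul_assoc, ← mul_pow, inv_mul_cancel₀ haF, one_pow, one_mul]
  rw [h4]
  exact (IsInt.algebraMap _).mul h3

end Fermat.Agent.MR.TH.BK2
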